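import Fermat.Agent.LT.A2.H54.LocFinSpec

/-!
# Row LT, tower A2, leaf A2.03.1.1.06.12 `LF54.LeafEta` (helper793, OFF-MAIN)

The Weil constant `γ` and the quadratic character `η` from the Gauss function `G`:
`g(a) = ‖a‖ G(a)`, `γ = 1 / g(-1)`, `η(a) = γ g(-a)`.

`leafEta793 : LF54.LeafEta`, VERBATIM vs `LT/A2/H54/LocFinSpec.lean`
(helper54@26071c838, sha256 8ccd9c5c).  Pure algebra (memo of helper54, par. 3), for every
normed field: `etaCert_exists793`.
-/

set_option autoImplicit false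

open IsDedekindDomain NumberField MeasureTheory
open scoped Topology

noncomputable section

namespace Fermat.Agent.LT.A2.H793

open Fermat.Agent.LT.A2 Fermat.Agent.LT.A2.WX467 Fermat.Agent.LT.A2.LF54

section Algebra

variable {k : Type} [NormedField k]

/-- `g(a) = ‖a‖ G(a)`. -/
def gFn793 (G : k → ℂ) (a : k) : ℂ := ((‖a‖ : ℝ) : ℂ) * G a

/-- `γ = 1 / g(-1)`. -/
def gammaFn793 (G : k → ℂ) : ℂ := (gFn793 G (-1))⁻¹

/-- `η(a) = γ g(-a)`. -/
def etaFn793 (G : k → ℂ) (a : k) : ℂ := gammaFn793 G * gFn793 G (-a)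

variable {t n : k} {c : ℝ} {G : k → ℂ}

theorem g_mul_g_neg793 (hP : GaussProdP c G) {a : k} (ha : a ≠ 0) :
    gFn793 G a * gFn793 G (-a) = (c : ℂ) := by
  have h := hP a ha
  unfold gFn793
  rw [norm_neg]
  rw [← h]
  push_cast
  ring

theorem g_ne_zero793 (hc : 0 < c) (hP : GaussProdP c G) {a : k} (ha : a ≠ 0) :
    gFn793 G a ≠ 0 := by
  intro h0
  have h := g_mul_g_neg793 hP ha
  rw [h0, zero_mul] at h
  have : (c : ℂ) ≠ 0 := by exact_mod_cast hc.ne'
  exact this h.symm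

theorem g_mul_norm793 (hN : GaussNormP t n G) {a : k} (ha : a ≠ 0) (x y : k)
    (hxy : qfL t n (x, y) ≠ 0) : gFn793 G (a * qfL t n (x, y)) = gFn793 G a := by
  have h := hN a ha x y hxy
  unfold gFn793
  rw [norm_mul, ← h]
  push_cast
  ring

theorem g_mul_sum_sq793 (hS : GaussSumP t n G) {a : k} (ha : a ≠ 0) (x₁ y₁ x₂ y₂ : k)
    (hs : qfL t n (x₁, y₁) + qfL t n (x₂, y₂) ≠ 0) :
    gFn793 G (a * (qfL t n (x₁, y₁) + qfL t n (x₂, y₂))) ^ 2 = gFn793 G a ^ 2 := by
  have h := hS a ha x₁ y₁ x₂ y₂ hs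
  unfold gFn793
  rw [norm_mul, mul_pow ((‖a‖ : ℝ) : ℂ) (G a), ← h]
  push_cast
  ring

theorem gamma_mul_g793 (hc : 0 < c) (hP : GaussProdP c G) :
    gammaFn793 G * gFn793 G (-1) = 1 := by
  unfold gammaFn793
  exact inv_mul_cancel₀ (g_ne_zero793 hc hP (neg_ne_zero.2 one_ne_zero))

/-- `η(a N) = η(a)` for a nonzero value `N` of the norm form. -/
theorem eta_mul_norm793 (hN : GaussNormP t n G) {a : k} (ha : a ≠ 0) (x y : k)
    (hxy : qfL t n (x, y) ≠ 0) : etaFn793 G (a * qfL t n (x, y)) = etaFn793 G a := by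
  unfold etaFn793
  rw [← neg_mul, g_mul_norm793 hN (neg_ne_zero.2 ha) x y hxy]

/-- `η = 1` on the nonzero values of the norm form. -/
theorem eta_norm_val793 (hc : 0 < c) (hN : GaussNormP t n G) (hP : GaussProdP c G) (x y : k)
    (hxy : qfL t n (x, y) ≠ 0) : etaFn793 G (qfL t n (x, y)) = 1 := by
  have h := eta_mul_norm793 hN (one_ne_zero : (1 : k) ≠ 0) x y hxy
  rw [one_mul] at h
  rw [h]
  unfold etaFn793
  exact gamma_mul_g793 hc hP

theorem eta_of_isNorm793 (hc : 0 < c) (hN : GaussNormP t n G) (hP : GaussProdP c G) {a : k}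
    (ha : a ≠ 0) (h : IsNormL t n a) : etaFn793 G a = 1 := by
  obtain ⟨x, y, rfl⟩ := h
  exact eta_norm_val793 hc hN hP x y ha

/-- squares are values of the norm form -/
theorem qfL_sq793 (t n y : k) : qfL t n (y, 0) = y ^ 2 := by
  unfold qfL
  ring

/-- `η(a y²) = η(a)`. -/
theorem eta_mul_sq793 (hN : GaussNormP t n G) {a y : k} (ha : a ≠ 0) (hy : y ≠ 0) :
    etaFn793 G (a * y ^ 2) = etaFn793 G a := by
  rw [← qfL_sq793 t n y]
  exact eta_mul_norm793 hN ha y 0 (by rw [qfL_sq793]; exact pow_ne_zero 2 hy)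

/-- On the non-norms `η` is constant, with square `1`. -/
theorem eta_nonNorm793 (hc : 0 < c) (hN : GaussNormP t n G) (hP : GaussProdP c G)
    (hS : GaussSumP t n G) (hI : NormIndexP t n) (hU : NonNormSumP t n) {a : k} (ha : a ≠ 0)
    (hna : ¬ IsNormL t n a) :
    ∃ ε : ℂ, ε ^ 2 = 1 ∧ ∀ b : k, b ≠ 0 → ¬ IsNormL t n b → etaFn793 G b = ε := by
  obtain ⟨x₁, y₁, x₂, y₂, hs, hns⟩ := hU ⟨a, ha, hna⟩
  set s : k := qfL t n (x₁, y₁) + qfL t n (x₂, y₂) with hsdef
  refine ⟨etaFn793 G s, ?_, ?_⟩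
  · unfold etaFn793
    have h1 : gFn793 G (-s) ^ 2 = gFn793 G (-1) ^ 2 := by
      have := g_mul_sum_sq793 hS (neg_ne_zero.2 (one_ne_zero : (1 : k) ≠ 0)) x₁ y₁ x₂ y₂ hs
      rw [neg_one_mul] at this
      exact this
    rw [mul_pow, h1, ← mul_pow, gamma_mul_g793 hc hP, one_pow]
  · intro b hb hnb
    obtain ⟨x, y, hxy⟩ := hI b s hb hs hnb hns
    have hbs : b * s ≠ 0 := mul_ne_zero hb hs
    have hsi : s⁻¹ ≠ 0 := inv_ne_zero hs
    have e : b = s * qfL t n (x, y) * s⁻¹ ^ 2 := by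
      rw [hxy]
      field_simp
    have h1 : etaFn793 G (s * qfL t n (x, y) * s⁻¹ ^ 2) = etaFn793 G (s * qfL t n (x, y)) :=
      eta_mul_sq793 hN (by rw [hxy]; exact mul_ne_zero hs hbs) hsi
    have h2 : etaFn793 G (s * qfL t n (x, y)) = etaFn793 G s :=
      eta_mul_norm793 hN hs x y (by rw [hxy]; exact hbs)
    rw [e, h1, h2]

theorem det_torMat793 (t n a b : k) : (torMat t n a b).det = qfL t n (a, b) := by
  unfold torMat qfL
  rw [Matrix.det_fin_two_of]
  ring

/-- **The certificate of `(γ, η)`** over any normed field. -/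
theorem etaCert_exists793 (t n : k) (c : ℝ) (G : k → ℂ) (hc : 0 < c)
    (hN : GaussNormP t n G) (hP : GaussProdP c G) (hS : GaussSumP t n G)
    (hI : NormIndexP t n) (hU : NonNormSumP t n) (hSq : SqOpenP k) :
    EtaCert t n c G (gammaFn793 G) (etaFn793 G) where
  eta_mul := by
    intro a b ha hb
    by_cases hna : IsNormL t n a
    · obtain ⟨x, y, rfl⟩ := hna
      rw [mul_comm, eta_mul_norm793 hN hb x y ha, eta_norm_val793 hc hN hP x y ha, one_mul]
    · by_cases hnb : IsNormL t n b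
      · obtain ⟨x, y, rfl⟩ := hnb
        rw [eta_mul_norm793 hN ha x y hb, eta_norm_val793 hc hN hP x y hb, mul_one]
      · obtain ⟨ε, hε, hall⟩ := eta_nonNorm793 hc hN hP hS hI hU ha hna
        rw [hall a ha hna, hall b hb hnb,
          eta_of_isNorm793 hc hN hP (mul_ne_zero ha hb) (hI a b ha hb hna hnb), ← pow_two, hε]
  eta_sq := by
    intro a ha
    by_cases hna : IsNormL t n a
    · exact Or.inl (eta_of_isNorm793 hc hN hP ha hna)
    · obtain ⟨ε, hε, hall⟩ := eta_nonNorm793 hc hN hP hS hI hU ha hna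
      rw [hall a ha hna]
      have hfac : (ε - 1) * (ε + 1) = 0 := by linear_combination hε
      rcases mul_eq_zero.1 hfac with h | h
      · exact Or.inl (by linear_combination h)
      · exact Or.inr (by linear_combination h)
  eta_norm := by
    rintro μ' ⟨a, b, rfl⟩ hdet
    rw [det_torMat793] at hdet ⊢
    exact eta_norm_val793 hc hN hP a b hdet
  eta_cont := by
    obtain ⟨ε, hε, hsq⟩ := hSq
    intro a ha
    have ha' : a ≠ 0 := ha
    have hpos : 0 < ε * ‖a‖ := mul_pos hε (norm_pos_iff.2 ha')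
    have hev : ∀ᶠ b in 𝓝[{a : k | a ≠ 0}] a, etaFn793 G b = etaFn793 G a := by
      have hball : Metric.ball a (ε * ‖a‖) ∈ 𝓝[{a : k | a ≠ 0}] a :=
        mem_nhdsWithin_of_mem_nhds (Metric.ball_mem_nhds a hpos)
      filter_upwards [hball, self_mem_nhdsWithin] with b hb hb0
      have hb0' : b ≠ 0 := hb0
      have h1 : ‖b / a - 1‖ < ε := by
        have e : b / a - 1 = (b - a) / a := by field_simp
        rw [e, norm_div, div_lt_iff₀ (norm_pos_iff.2 ha')]
        rw [Metric.mem_ball, dist_eq_norm] at hb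
        exact hb
      obtain ⟨y, hy⟩ := hsq (b / a) h1
      have hy0 : y ≠ 0 := by
        rintro rfl
        rw [zero_pow two_ne_zero] at hy
        exact div_ne_zero hb0' ha' hy.symm
      have e2 : b = a * y ^ 2 := by
        rw [hy]
        field_simp
      rw [e2]
      exact eta_mul_sq793 hN ha' hy0
    exact continuousWithinAt_const.congr_of_eventuallyEq hev rfl
  w2 := by
    have h1 := g_mul_g_neg793 hP (one_ne_zero : (1 : k) ≠ 0)
    have h2 := gamma_mul_g793 (G := G) hc hP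
    unfold etaFn793
    rw [neg_neg, ← h1]
    linear_combination (gammaFn793 G * gFn793 G 1) * h2
  gauss_eta := by
    intro a _
    unfold etaFn793 gFn793
    rw [neg_neg]
    ring

end Algebra

/-- **A2.03.1.1.06.12 = `LF54.LeafEta`**, verbatim. -/
theorem leafEta793 : LeafEta := by
  intro K _ _ v t n ψ μ c G _ hF hN hP hS hI hU hSq
  exact ⟨gammaFn793 G, etaFn793 G, etaCert_exists793 t n c G hF.c_pos hN hP hS hI hU hSq⟩

end Fermat.Agent.LT.A2.H793

end
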